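import Fermat.Agent.S36.Norm.VertRed
import Fermat.Agent.S36.G.Defs
import Fermat.Agent.Lib.BadRed.Mod.GaussSetupFinal
import Fermat.Agent.Lib.BadRed.Mod.FrobAut

set_option autoImplicit false
set_option linter.style.haveILetI false
set_option linter.unusedSectionVars false
set_option linter.unusedVariables false

/-!
# S36 (Carayol), Step 1 of the proof of (CORE), function form, vertices `∞` and `0`  (helper66)

`q` prime, `N₁ = q R` (`D₁.Q = q`, `D₁.R = R`, `q ∤ R`), `M = N₁ q` (`D₂.Q = D₁.Q * q`), `A ∣ q`,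
`k` the residue field of `A`, `F_k(R) = modularFunctionFieldFullC k R`.

* `IsKPow Fk n r` : the series `r` is a nonzero constant times the `n`-th power of a nonzero
  element of `Fk`  (the class of `r` in `Fk^× / k^× (Fk^×)ⁿ` is trivial);
* `step1_inf`  : if `Norm_α (W₂ g)` is a constant times an `n`-th power (`π₂_* x = 0`) then the
  residue of `g` at `v_∞` is `IsKPow`;
* `step1_zero` : if `Norm_α g` is a constant times an `n`-th power (`π₁_* x = 0`) then the residue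
  of `g` at `v_0 = v_∞ ∘ W₂` is `IsKPow`.

No condition on `n`.  Proof: (N1), (N1') of `S36/Norm/VertRed.lean` (the residue of the norm is the
Frobenius twist of the residue) and the stability of `F_k(R)` under the inverse of the coefficientwise
Frobenius (T, `Lib/BadRed/Mod/FrobAut.lean`).
-/

noncomputable section

namespace Fermat.Agent.S36N

open ModularCurve AlgebraicCurve Fermat.Agent.F3 Fermat.Agent.F3G Fermat.Agent.GaussInt
  Fermat.Agent.AtkinLehner Fermat.Agent.Kronecker Fermat.Agent.BadRed Fermat.Agent.HeckeComm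
  Fermat.Agent.S36G

local notation "Qb" => AlgebraicClosure ℚ

attribute [local instance 10000] SubalgebraClass.toAlgebra HahnSeries.powerSeriesAlgebra

set_option synthInstance.maxHeartbeats 400000

/-- `r` is a nonzero constant times the `n`-th power of a nonzero element of `Fk`. -/
def IsKPow {k : Type*} [Field k] (Fk : IntermediateField k (LaurentSeries k)) (n : ℕ)
    (r : LaurentSeries k) : Prop :=
  ∃ (κ : k) (h : LaurentSeries k), κ ≠ 0 ∧ h ∈ Fk ∧ h ≠ 0 ∧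
    r = algebraMap k (LaurentSeries k) κ * h ^ n

section IsKPow

variable {k : Type*} [Field k] {Fk : IntermediateField k (LaurentSeries k)} {n : ℕ}
  {r s : LaurentSeries k}

theorem IsKPow.ne_zero (h : IsKPow Fk n r) : r ≠ 0 := by
  obtain ⟨κ, h, hκ, -, hh, rfl⟩ := h
  exact mul_ne_zero (by simpa using hκ) (pow_ne_zero _ hh)

theorem IsKPow.mem (h : IsKPow Fk n r) : r ∈ Fk := by
  obtain ⟨κ, h, -, hh, -, rfl⟩ := h
  exact mul_mem (Fk.algebraMap_mem κ) (pow_mem hh n)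

theorem IsKPow.one : IsKPow Fk n 1 :=
  ⟨1, 1, one_ne_zero, one_mem _, one_ne_zero, by rw [map_one, one_pow, one_mul]⟩

theorem IsKPow.mul (hr : IsKPow Fk n r) (hs : IsKPow Fk n s) : IsKPow Fk n (r * s) := by
  obtain ⟨κ, h, hκ, hh, hh0, rfl⟩ := hr
  obtain ⟨κ', h', hκ', hh', hh0', rfl⟩ := hs
  exact ⟨κ * κ', h * h', mul_ne_zero hκ hκ', mul_mem hh hh', mul_ne_zero hh0 hh0', by
    rw [map_mul, mul_pow]; ring⟩

theorem IsKPow.inv (hr : IsKPow Fk n r) : IsKPow Fk n r⁻¹ := by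
  obtain ⟨κ, h, hκ, hh, hh0, rfl⟩ := hr
  exact ⟨κ⁻¹, h⁻¹, inv_ne_zero hκ, inv_mem hh, inv_ne_zero hh0, by
    rw [map_inv₀, inv_pow, mul_inv]⟩

theorem IsKPow.div (hr : IsKPow Fk n r) (hs : IsKPow Fk n s) : IsKPow Fk n (r / s) := by
  rw [div_eq_mul_inv]
  exact hr.mul hs.inv

theorem IsKPow.pow (hr : IsKPow Fk n r) (m : ℕ) : IsKPow Fk n (r ^ m) := by
  induction m with
  | zero => rw [pow_zero]; exact IsKPow.one
  | succ m ih => rw [pow_succ]; exact ih.mul hr

theorem IsKPow.of_pow_self {h : LaurentSeries k} (hh : h ∈ Fk) (hh0 : h ≠ 0) :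
    IsKPow Fk n (h ^ n) :=
  ⟨1, h, one_ne_zero, hh, hh0, by rw [map_one, one_mul]⟩

theorem IsKPow.const {κ : k} (hκ : κ ≠ 0) : IsKPow Fk n (algebraMap k (LaurentSeries k) κ) :=
  ⟨κ, 1, hκ, one_mem _, one_ne_zero, by rw [one_pow, mul_one]⟩

theorem IsKPow.mono {Fk' : IntermediateField k (LaurentSeries k)} (hle : Fk ≤ Fk')
    (hr : IsKPow Fk n r) : IsKPow Fk' n r := by
  obtain ⟨κ, h, hκ, hh, hh0, rfl⟩ := hr
  exact ⟨κ, h, hκ, hle hh, hh0, rfl⟩

end IsKPow

variable {N : ℕ} [NeZero N] {A : ValuationSubring Qb}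

/-- a constant in the Gauss ring with nonzero residue: the residue is a nonzero constant. -/
theorem exists_residue_of_const {e : Qb}
    {ρ : LaurentSeries (IsLocalRing.ResidueField A)}
    (hmem : algebraMap Qb (LaurentSeries Qb) e ∈ gaussSub A (modularFunctionFieldBar N))
    (hres : gaussResFun A (modularFunctionFieldBar N) (algebraMap Qb (LaurentSeries Qb) e) = ρ)
    (hρ : ρ ≠ 0) :
    ∃ κ : IsLocalRing.ResidueField A, κ ≠ 0 ∧
      ρ = algebraMap (IsLocalRing.ResidueField A) (LaurentSeries (IsLocalRing.ResidueField A)) κ := by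
  have he : e ∈ A := algebraMap_mem_gaussSub_iff.mp hmem
  rw [gaussResFun_algebraMap he] at hres
  refine ⟨IsLocalRing.residue A ⟨e, he⟩, ?_, hres.symm⟩
  intro h0
  apply hρ
  rw [← hres, h0, map_zero]

/-- **Key lemma.**  If `x = a uⁿ` has residue `ρ ≠ 0` for the valuation `v_∞ ∘ ψ` of `F_N` and the
residues of `F_N` lie in `Fk`, then `ρ` is a constant times an `n`-th power in `Fk`. -/
theorem isKPow_of_redAt_isCPow {ℓ : ℕ} (hℓ : ℓ.Prime) (hA : A.LiesOverPrime ℓ)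
    (Fk : IntermediateField (IsLocalRing.ResidueField A)
      (LaurentSeries (IsLocalRing.ResidueField A)))
    (hFk : ∀ f ∈ gaussSub A (modularFunctionFieldBar N),
      gaussResFun A (modularFunctionFieldBar N) f ∈ Fk)
    (ψ : FBar N ≃ₐ[Qb] FBar N) {n : ℕ} {x : FBar N}
    {ρ : LaurentSeries (IsLocalRing.ResidueField A)}
    (hx : IsCPow n x) (hred : RedAt A ψ x ρ) (hρ : ρ ≠ 0) : IsKPow Fk n ρ := by
  obtain ⟨u, a, ha, rfl⟩ := hx
  have hx0 : algebraMap Qb (FBar N) a * u ^ n ≠ 0 := hred.ne_zero hρ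
  obtain ⟨u', hu0, hxu⟩ : ∃ u' : FBar N, u' ≠ 0 ∧
      algebraMap Qb (FBar N) a * u ^ n = algebraMap Qb (FBar N) a * u' ^ n := by
    by_cases h : u = 0
    · subst h
      rcases Nat.eq_zero_or_pos n with hn | hn
      · subst hn
        exact ⟨1, one_ne_zero, by rw [pow_zero, pow_zero]⟩
      · exact absurd (by rw [zero_pow hn.ne', mul_zero]) hx0
    · exact ⟨u, h, rfl⟩
  rw [hxu] at hred hx0
  clear hxu u
  obtain ⟨u, hu0⟩ : ∃ u : FBar N, u = u' ∧ u ≠ 0 := ⟨u', rfl, hu0⟩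
  obtain ⟨rfl, hu0⟩ := hu0
  obtain ⟨d, hd0, s, hs0, hds⟩ := exists_scale_redAt hℓ hA ψ hu0
  have hpow : RedAt A ψ ((algebraMap Qb (FBar N) d * u) ^ n) (s ^ n) := hds.pow n
  have hsn : s ^ n ≠ 0 := pow_ne_zero _ hs0
  have hdiv := hred.div hpow hsn
  have hquot : algebraMap Qb (FBar N) a * u ^ n / (algebraMap Qb (FBar N) d * u) ^ n =
      algebraMap Qb (FBar N) (a / d ^ n) := by
    rw [mul_pow, map_div₀, map_pow]
    have h1 : algebraMap Qb (FBar N) d ≠ 0 := by simpa using hd0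
    have h2 : u ^ n ≠ 0 := pow_ne_zero _ hu0
    field_simp
  rw [hquot] at hdiv
  have hcoe : ((ψ (algebraMap Qb (FBar N) (a / d ^ n)) : FBar N) : LaurentSeries Qb) =
      algebraMap Qb (LaurentSeries Qb) (a / d ^ n) := by
    rw [AlgEquiv.commutes]
    rfl
  obtain ⟨hm, hr⟩ := hdiv
  rw [hcoe] at hm hr
  obtain ⟨κ, hκ, hκeq⟩ := exists_residue_of_const hm hr (div_ne_zero hρ hsn)
  have hsFk : s ∈ Fk := by
    have h1 := hFk _ hds.1
    rw [hds.2] at h1
    exact h1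
  refine ⟨κ, s, hκ, hsFk, hs0, ?_⟩
  rw [← hκeq, div_mul_cancel₀ _ hsn]

/-! ### the inverse Frobenius -/

section Frob

variable (k : Type*) [Field k] (R : ℕ) (q : ℕ) [Fact q.Prime] [CharP k q] [PerfectRing k q]

/-- `F_k(R)` is stable under the inverse of the coefficientwise Frobenius. -/
theorem exists_frob_preimage {h : LaurentSeries k} (hh : h ∈ modularFunctionFieldFullC k R) :
    ∃ h' ∈ modularFunctionFieldFullC k R, coeffMap (frobenius k q) h' = h := by
  refine ⟨(((frobAut k R q)⁻¹ • (⟨h, hh⟩ : modularFunctionFieldFullC k R) :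
    modularFunctionFieldFullC k R) : LaurentSeries k), SetLike.coe_mem _, ?_⟩
  rw [← coe_frobAut_smul, smul_inv_smul]

/-- `IsKPow` descends along the coefficientwise Frobenius. -/
theorem isKPow_of_frob {n : ℕ} {r : LaurentSeries k}
    (h : IsKPow (modularFunctionFieldFullC k R) n (coeffMap (frobenius k q) r)) :
    IsKPow (modularFunctionFieldFullC k R) n r := by
  obtain ⟨κ, h, hκ, hh, hh0, heq⟩ := h
  obtain ⟨h', hh', hfrob⟩ := exists_frob_preimage k R q hh
  obtain ⟨κ', hκ'⟩ : ∃ κ' : k, κ' ^ q = κ :=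
    ⟨(frobeniusEquiv k q).symm κ, frobeniusEquiv_symm_pow_p k q κ⟩
  have hinj : Function.Injective (coeffMap (frobenius k q)) :=
    coeffMap_injective_of_injective _ (frobenius k q).injective
  refine ⟨κ', h', ?_, hh', ?_, ?_⟩
  · rintro rfl
    apply hκ
    rw [← hκ', zero_pow (Fact.out : q.Prime).ne_zero]
  · rintro rfl
    apply hh0
    rw [← hfrob, map_zero]
  · apply hinj
    rw [heq, map_mul, map_pow, hfrob]
    congr 1
    rw [algebraMap_laurentSeries_eq_single, algebraMap_laurentSeries_eq_single, coeffMap_single,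
      frobenius_def, hκ']

end Frob

/-! ### Step 1 at the vertices `∞` and `0` -/

section Step1

variable {ℓ : ℕ} [NeZero ℓ]

/-- the residues of the Gauss ring of `F_{qR}` lie in `F_k(R)` (T, MA1). -/
theorem gaussResFun_mem_fullC_of_data (D₁ : ALData) [NeZero D₁.R] (hN : N = D₁.Q * D₁.R)
    (hQ : D₁.Q.Prime) (hQR : ¬ D₁.Q ∣ D₁.R) (hA : A.LiesOverPrime D₁.Q) :
    ∀ f ∈ gaussSub A (modularFunctionFieldBar N),
      gaussResFun A (modularFunctionFieldBar N) f ∈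
        modularFunctionFieldFullC (IsLocalRing.ResidueField A) D₁.R := by
  subst hN
  intro f hf
  have hS := isGaussSetup_gaussSetupBad D₁ hQ hQR A hA
  have hfF : f ∈ modularFunctionFieldBar (D₁.Q * D₁.R) := mem_of_mem_gaussSub hf
  have hmem : (⟨f, hfF⟩ : FBar (D₁.Q * D₁.R)) ∈ (gaussSetupBad D₁ hQ hQR A hA).Ov :=
    (hS.mem_iff ⟨f, hfF⟩).mpr hf
  have h := hS.coe_red ⟨f, hfF⟩ hmem
  rw [← h]
  exact SetLike.coe_mem _

/-- **Step 1 at `∞`**: `π₂_* x = 0` kills the class of the residue of `g` at `v_∞`. -/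
theorem step1_inf [Fact ℓ.Prime] [CharP (IsLocalRing.ResidueField A) ℓ]
    [PerfectRing (IsLocalRing.ResidueField A) ℓ]
    (hA : A.LiesOverPrime ℓ) (D₁ D₂ : ALData) [NeZero D₁.R] (hQ₁ : D₁.Q = ℓ)
    (hQR : ¬ ℓ ∣ D₁.R)
    (hQ : D₂.Q = D₁.Q * ℓ) (hR : D₂.R = D₁.R) (hN : N = D₁.Q * D₁.R)
    (hNℓ : N * ℓ = D₂.Q * D₂.R) {n : ℕ} {g : FBar (N * ℓ)}
    {r : LaurentSeries (IsLocalRing.ResidueField A)}
    (hnorm : IsCPow n (normAlong (heckeAlphaBar Qb N ℓ) (wAt D₂ hNℓ g)))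
    (hg : RedAt A (AlgEquiv.refl : FBar (N * ℓ) ≃ₐ[Qb] FBar (N * ℓ)) g r) (hr : r ≠ 0) :
    IsKPow (modularFunctionFieldFullC (IsLocalRing.ResidueField A) D₁.R) n r := by
  have hℓ : ℓ.Prime := Fact.out
  have hℓN : ℓ ∣ N := by rw [hN, hQ₁]; exact dvd_mul_right ℓ D₁.R
  have hred := redAt_norm_alpha_W hA hℓN D₁ D₂ hQ hR hN hNℓ hg hr
  have hinj : Function.Injective (coeffMap (frobenius (IsLocalRing.ResidueField A) ℓ)) :=
    coeffMap_injective_of_injective _ (frobenius (IsLocalRing.ResidueField A) ℓ).injective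
  have hρ : coeffMap (frobenius (IsLocalRing.ResidueField A) ℓ) r ≠ 0 := fun h0 =>
    hr (hinj (by rw [h0, map_zero]))
  have hFk := gaussResFun_mem_fullC_of_data (N := N) (A := A) D₁ hN (hQ₁ ▸ hℓ)
    (by rw [hQ₁]; exact hQR) (by rw [hQ₁]; exact hA)
  exact isKPow_of_frob _ D₁.R ℓ
    (isKPow_of_redAt_isCPow hℓ hA _ hFk (wAt D₁ hN) hnorm hred hρ)

/-- **Step 1 at `0`**: `π₁_* x = 0` kills the class of the residue of `g` at `v_0 = v_∞ ∘ W₂`. -/
theorem step1_zero [Fact ℓ.Prime] [CharP (IsLocalRing.ResidueField A) ℓ]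
    [PerfectRing (IsLocalRing.ResidueField A) ℓ]
    (hA : A.LiesOverPrime ℓ) (D₁ D₂ : ALData) [NeZero D₁.R] (hQ₁ : D₁.Q = ℓ)
    (hQR : ¬ ℓ ∣ D₁.R)
    (hQ : D₂.Q = D₁.Q * ℓ) (hR : D₂.R = D₁.R) (hN : N = D₁.Q * D₁.R)
    (hNℓ : N * ℓ = D₂.Q * D₂.R) {n : ℕ} {g : FBar (N * ℓ)}
    {r : LaurentSeries (IsLocalRing.ResidueField A)}
    (hnorm : IsCPow n (normAlong (heckeAlphaBar Qb N ℓ) g))
    (hg : RedAt A (wAt D₂ hNℓ) g r) (hr : r ≠ 0) :
    IsKPow (modularFunctionFieldFullC (IsLocalRing.ResidueField A) D₁.R) n r := by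
  have hℓ : ℓ.Prime := Fact.out
  have hℓN : ℓ ∣ N := by rw [hN, hQ₁]; exact dvd_mul_right ℓ D₁.R
  have hred := redAt_norm_alpha hA hℓN D₁ D₂ hQ hR hN hNℓ hg hr
  have hinj : Function.Injective (coeffMap (frobenius (IsLocalRing.ResidueField A) ℓ)) :=
    coeffMap_injective_of_injective _ (frobenius (IsLocalRing.ResidueField A) ℓ).injective
  have hρ : coeffMap (frobenius (IsLocalRing.ResidueField A) ℓ) r ≠ 0 := fun h0 =>
    hr (hinj (by rw [h0, map_zero]))
  have hFk := gaussResFun_mem_fullC_of_data (N := N) (A := A) D₁ hN (hQ₁ ▸ hℓ)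
    (by rw [hQ₁]; exact hQR) (by rw [hQ₁]; exact hA)
  exact isKPow_of_frob _ D₁.R ℓ
    (isKPow_of_redAt_isCPow hℓ hA _ hFk (wAt D₁ hN) hnorm hred hρ)

end Step1

end Fermat.Agent.S36N
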