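/-
Cluster G (S36, Carayol at `q² ∥ M`), block NORM / Step 1, seat S1-MID (helper17; statement and
proof sketch: helper66).

Step 1 of `NOTES/blueprint-G-S36-v2.md` (section 3), FUNCTION form, at the MIDDLE vertices:

  `g ≠ 0`, the class of `g` fixed by the inertia group at `A ∣ q`, `Norm_{π₁} g = a uⁿ`, and the
  reduction of `g` at `v_∞` a constant times an `n`-th power  ⟹
  the `(q - 1)`-st power of the reduction of `g` at every middle vertex `v_b` is a constant times
  an `n`-th power (in `igField k M₀`).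

Ingredients (all on main):
* the product formula `Norm_α g = g · ∏_b ε_b g` (`S36N.norm_alpha_mid_expansion`, helper66);
* the inertia group permutes the middle expansions transitively and acts trivially on the
  residues (`S36N.expRes_galFun_of_inertia`, helper45; `S36G.inert_exists_pow_on_roots`, helper55);
* the value group (`IgScale`) and the residue field (`IgResUpper`) of the middle valuations, as
  HYPOTHESES (seat IG-VAL / ASM of helper52).

`IsKPow Fk n r` (`S36/Step1/Vert.lean`, helper66) : `r = κ hⁿ`, `κ ∈ k^×`, `h ∈ Fk^×`.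
-/
import Fermat.Agent.S36.Step1.Vert
import Fermat.Agent.S36.Norm.MidProd
import Fermat.Agent.S36.Norm.MidInert
import Fermat.Agent.S36.G.InertArith
import Fermat.Agent.S36.G.Defs
import Fermat.Agent.S36.Igusa.AsmSetup
import Fermat.Agent.Lib.BadRed.Bridge.P1
import Fermat.Agent.Lib.BadRed.Mod.ValInf
import Fermat.Agent.Lib.BadRed.ModFacts

set_option autoImplicit false
set_option linter.style.haveILetI false
set_option linter.unusedSectionVars false
set_option linter.unusedVariables false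
set_option synthInstance.maxHeartbeats 400000

noncomputable section

namespace Fermat.Agent.S36N

open ModularCurve AlgebraicCurve Fermat.Agent.F3 Fermat.Agent.F3G Fermat.Agent.GaussInt
  Fermat.Agent.AtkinLehner Fermat.Agent.Kronecker Fermat.Agent.BadRed Fermat.Agent.HeckeComm
  Fermat.Agent.S36G

local notation "Qb" => AlgebraicClosure ℚ

attribute [local instance 10000] SubalgebraClass.toAlgebra HahnSeries.powerSeriesAlgebra

/-! ### constants times `n`-th powers -/

section KPow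

variable {k : Type*} [Field k] {Fk : IntermediateField k (LaurentSeries k)} {n : ℕ}

/-- finite products of constants times `n`-th powers. -/
theorem mid_isKPow_prod {ι : Type*} (t : Finset ι) (f : ι → LaurentSeries k)
    (h : ∀ i ∈ t, IsKPow Fk n (f i)) : IsKPow Fk n (∏ i ∈ t, f i) := by
  classical
  induction t using Finset.induction_on with
  | empty =>
    rw [Finset.prod_empty]
    exact IsKPow.one
  | insert a t ha ih =>
    rw [Finset.prod_insert ha]
    exact (h a (Finset.mem_insert_self a t)).mul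
      (ih fun i hi => h i (Finset.mem_insert_of_mem hi))

end KPow

/-! ### constants relating two units of a Gauss ring -/

section Gauss

variable {K : Type*} [Field K] {A : ValuationSubring K}
  {F : IntermediateField K (LaurentSeries K)}

theorem mid_gaussResFun_mul {x y : LaurentSeries K}
    (hx : x ∈ gaussSub A F) (hy : y ∈ gaussSub A F) :
    gaussResFun A F (x * y) = gaussResFun A F x * gaussResFun A F y := by
  have h1 : gaussRes A F (⟨x, hx⟩ * ⟨y, hy⟩) = gaussRes A F ⟨x, hx⟩ * gaussRes A F ⟨y, hy⟩ :=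
    map_mul _ _ _
  exact h1

theorem mid_gaussResFun_pow {x : LaurentSeries K} (hx : x ∈ gaussSub A F) (n : ℕ) :
    gaussResFun A F (x ^ n) = gaussResFun A F x ^ n := by
  have h1 : gaussRes A F (⟨x, hx⟩ ^ n) = gaussRes A F ⟨x, hx⟩ ^ n := map_pow _ _ _
  exact h1

theorem mid_gaussResFun_zero : gaussResFun A F (0 : LaurentSeries K) = 0 :=
  map_zero (gaussRes A F)

/-- two units `x`, `y` of the Gauss ring with `y = C x`, `C` a constant: the residues differ by a
nonzero constant. -/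
theorem mid_gaussResFun_const_rel {x y : LaurentSeries K} {C : K}
    (hx : x ∈ gaussSub A F) (hy : y ∈ gaussSub A F)
    (hxr : gaussResFun A F x ≠ 0) (hyr : gaussResFun A F y ≠ 0)
    (h : y = algebraMap K (LaurentSeries K) C * x) :
    ∃ κ : IsLocalRing.ResidueField A, κ ≠ 0 ∧
      gaussResFun A F y =
        algebraMap (IsLocalRing.ResidueField A) (LaurentSeries (IsLocalRing.ResidueField A)) κ *
          gaussResFun A F x := by
  subst h
  have hxi := inv_mem_gaussSub hx hxr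
  have hx0 : x ≠ 0 := by
    intro h0
    rw [h0] at hxr
    exact hxr mid_gaussResFun_zero
  have hC : algebraMap K (LaurentSeries K) C ∈ gaussSub A F := by
    have e : algebraMap K (LaurentSeries K) C = algebraMap K (LaurentSeries K) C * x * x⁻¹ := by
      rw [mul_assoc, mul_inv_cancel₀ hx0, mul_one]
    rw [e]
    exact (gaussSub A F).mul_mem hy hxi
  have hCA : C ∈ A := algebraMap_mem_gaussSub_iff.mp hC
  have hmul := mid_gaussResFun_mul hC hx
  rw [gaussResFun_algebraMap hCA] at hmul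
  refine ⟨IsLocalRing.residue A ⟨C, hCA⟩, ?_, hmul⟩
  intro h0
  rw [h0, map_zero, zero_mul] at hmul
  exact hyr hmul

/-- products in the Gauss ring. -/
theorem mid_gaussResFun_prod {ι : Type*} (t : Finset ι) (f : ι → LaurentSeries K)
    (h : ∀ i ∈ t, f i ∈ gaussSub A F) :
    ∏ i ∈ t, f i ∈ gaussSub A F ∧
      gaussResFun A F (∏ i ∈ t, f i) = ∏ i ∈ t, gaussResFun A F (f i) := by
  classical
  induction t using Finset.induction_on with
  | empty =>
    rw [Finset.prod_empty, Finset.prod_empty]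
    exact ⟨(gaussSub A F).one_mem, map_one (gaussRes A F)⟩
  | insert a t ha ih =>
    obtain ⟨h1, h2⟩ := ih fun i hi => h i (Finset.mem_insert_of_mem hi)
    have ha' := h a (Finset.mem_insert_self a t)
    rw [Finset.prod_insert ha, Finset.prod_insert ha]
    exact ⟨(gaussSub A F).mul_mem ha' h1, by rw [mid_gaussResFun_mul ha' h1, h2]⟩

end Gauss

section Exp

variable {F : Type*} [Field F] [Algebra Qb F]
  (ε : F →ₐ[Qb] LaurentSeries Qb) (A : ValuationSubring Qb)

/-- two units `x`, `y` of `expOv ε A` with `y = C x`: the residues differ by a nonzero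
constant. -/
theorem mid_expRes_const_rel {x y : F} {C : Qb}
    (hx : x ∈ expOv ε A) (hy : y ∈ expOv ε A)
    (hxr : expRes ε A x ≠ 0) (hyr : expRes ε A y ≠ 0)
    (h : y = algebraMap Qb F C * x) :
    ∃ κ : IsLocalRing.ResidueField A, κ ≠ 0 ∧
      expRes ε A y =
        algebraMap (IsLocalRing.ResidueField A) (LaurentSeries (IsLocalRing.ResidueField A)) κ *
          expRes ε A x :=
  mid_gaussResFun_const_rel (F := (⊤ : IntermediateField Qb (LaurentSeries Qb))) hx hy hxr hyr
    (by rw [h, map_mul, AlgHom.commutes])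

theorem mid_expRes_pow {x : F} (hx : x ∈ expOv ε A) (n : ℕ) :
    expRes ε A (x ^ n) = expRes ε A x ^ n :=
  map_pow (expResHom ε A) ⟨x, hx⟩ n

/-- a unit of `expOv ε A` has nonzero residue. -/
theorem mid_expRes_ne_zero_of_inv_mem {x : F} (hx0 : x ≠ 0) (hx : x ∈ expOv ε A)
    (hxi : x⁻¹ ∈ expOv ε A) : expRes ε A x ≠ 0 := by
  intro h0
  have h := expRes_mul ε A hx hxi
  rw [mul_inv_cancel₀ hx0, expRes_one, h0, zero_mul] at h
  exact one_ne_zero h

end Exp

/-- replace the root `u` of a nonzero `n`-th power by a nonzero root. -/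
theorem mid_exists_ne_zero_root {F : Type*} [Field F] (u : F) (n : ℕ) (h : u ^ n ≠ 0) :
    ∃ u' : F, u' ≠ 0 ∧ u' ^ n = u ^ n := by
  by_cases hu : u = 0
  · subst hu
    by_cases hn : n = 0
    · subst hn
      exact ⟨1, one_ne_zero, by rw [pow_zero, pow_zero]⟩
    · exact absurd (zero_pow hn) h
  · exact ⟨u, hu, rfl⟩

/-! ### the middle vertices -/

section Mid

variable {M₀ q : ℕ} [NeZero M₀] [NeZero q]

/-- scaling to a unit of a middle valuation (`IgScale`), with its residue (`IgResUpper`). -/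
theorem mid_exists_unit (hq : q.Prime) (hqM : ¬ q ∣ M₀) (A : ValuationSubring Qb)
    (hA : A.LiesOverPrime q) (hscale : IgScale M₀ q) (hupper : IgResUpper M₀ q) {z : Qbˣ}
    {ε : FBar (M₀ * q * q) →ₐ[Qb] LaurentSeries Qb} (hz : IsPrimitiveRoot z q)
    (hε : IsMidExp M₀ q z ε) {f : FBar (M₀ * q * q)} (hf : f ≠ 0) :
    ∃ c : Qb, c ≠ 0 ∧ algebraMap Qb (FBar (M₀ * q * q)) c * f ∈ expOv ε A ∧
      expRes ε A (algebraMap Qb (FBar (M₀ * q * q)) c * f) ≠ 0 ∧
      expRes ε A (algebraMap Qb (FBar (M₀ * q * q)) c * f) ∈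
        igField (IsLocalRing.ResidueField A) M₀ := by
  obtain ⟨c, hc, h1, h2⟩ := hscale hq hqM A hA z ε hz hε f hf
  have hne : f * (algebraMap Qb (FBar (M₀ * q * q)) c)⁻¹ ≠ 0 :=
    mul_ne_zero hf (inv_ne_zero ((map_ne_zero _).mpr hc))
  have e : algebraMap Qb (FBar (M₀ * q * q)) c⁻¹ * f =
      f * (algebraMap Qb (FBar (M₀ * q * q)) c)⁻¹ := by
    rw [map_inv₀]
    exact mul_comm _ _
  refine ⟨c⁻¹, inv_ne_zero hc, ?_, ?_, ?_⟩
  · rw [e]
    exact h1
  · rw [e]
    exact mid_expRes_ne_zero_of_inv_mem ε A hne h1 h2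
  · rw [e]
    exact hupper hq hqM A hA z ε hz hε _ h1

/-- **INERTIA**: the residues of (scalings of) `g` at two middle expansions agree modulo constants
and `n`-th powers, if the class of `g` is fixed by the inertia group. -/
theorem mid_inertia_rel (hq : q.Prime) (hqM : ¬ q ∣ M₀) (A : ValuationSubring Qb)
    (hA : A.LiesOverPrime q) (hscale : IgScale M₀ q) (hupper : IgResUpper M₀ q)
    {z z' : Qbˣ} (hz : IsPrimitiveRoot z q) (hz' : IsPrimitiveRoot z' q)
    {ε ε' : FBar (M₀ * q * q) →ₐ[Qb] LaurentSeries Qb}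
    (hε : IsMidExp M₀ q z ε) (hε' : IsMidExp M₀ q z' ε')
    {n : ℕ} {g : FBar (M₀ * q * q)} (hg : g ≠ 0) (hfix : InertiaFixedFun (M₀ * q * q) A n g)
    {c c' : Qb} (hc : c ≠ 0) (hc' : c' ≠ 0)
    (hmem : algebraMap Qb (FBar (M₀ * q * q)) c * g ∈ expOv ε A)
    (hres : expRes ε A (algebraMap Qb (FBar (M₀ * q * q)) c * g) ≠ 0)
    (hmem' : algebraMap Qb (FBar (M₀ * q * q)) c' * g ∈ expOv ε' A)
    (hres' : expRes ε' A (algebraMap Qb (FBar (M₀ * q * q)) c' * g) ≠ 0) :
    IsKPow (igField (IsLocalRing.ResidueField A) M₀) n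
      (expRes ε A (algebraMap Qb (FBar (M₀ * q * q)) c * g) /
        expRes ε' A (algebraMap Qb (FBar (M₀ * q * q)) c' * g)) := by
  haveI : Fact q.Prime := ⟨hq⟩
  have hzQ : IsPrimitiveRoot (z : Qb) q := IsPrimitiveRoot.coe_units_iff.mpr hz
  have hz'Q : IsPrimitiveRoot (z' : Qb) q := IsPrimitiveRoot.coe_units_iff.mpr hz'
  obtain ⟨i, hi, hpow⟩ := hzQ.eq_pow_of_pow_eq_one hz'Q.pow_eq_one
  have hqi : ¬ q ∣ i := by
    intro hd
    have hi0 : i = 0 := Nat.eq_zero_of_dvd_of_lt hd hi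
    rw [hi0, pow_zero] at hpow
    exact hz'Q.ne_one hq.one_lt hpow.symm
  obtain ⟨τ, hτ, hτpow⟩ := inert_exists_pow_on_roots q A hA i hqi
  have hzz : (z' : Qb) = τ (z : Qb) := by rw [hτpow _ hzQ.pow_eq_one, hpow]
  obtain ⟨hm0, hr0⟩ := expRes_galFun_of_inertia hq A τ hτ hzz hε hε' hmem
  have hm : galFun (M₀ * q * q) τ (algebraMap Qb (FBar (M₀ * q * q)) c * g) ∈ expOv ε' A := hm0
  have hr : expRes ε' A (galFun (M₀ * q * q) τ (algebraMap Qb (FBar (M₀ * q * q)) c * g)) =
      expRes ε A (algebraMap Qb (FBar (M₀ * q * q)) c * g) := hr0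
  obtain ⟨u, a, ha, hu⟩ := hfix τ hτ
  have hun : u ^ n ≠ 0 := by
    intro h0
    rw [h0, mul_zero, zero_mul] at hu
    exact galFun_ne_zero τ hg hu
  obtain ⟨u', hu'0, hu'⟩ := mid_exists_ne_zero_root u n hun
  obtain ⟨d, hd, hdm, hdr, hdF⟩ := mid_exists_unit hq hqM A hA hscale hupper hz' hε' hu'0
  have hvn : (algebraMap Qb (FBar (M₀ * q * q)) d * u') ^ n ∈ expOv ε' A :=
    (expOv ε' A).pow_mem hdm n
  have hX : (algebraMap Qb (FBar (M₀ * q * q)) d * u') ^ n *
      (algebraMap Qb (FBar (M₀ * q * q)) c' * g) ∈ expOv ε' A :=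
    (expOv ε' A).mul_mem hvn hmem'
  have hXr : expRes ε' A ((algebraMap Qb (FBar (M₀ * q * q)) d * u') ^ n *
      (algebraMap Qb (FBar (M₀ * q * q)) c' * g)) =
      expRes ε' A (algebraMap Qb (FBar (M₀ * q * q)) d * u') ^ n *
        expRes ε' A (algebraMap Qb (FBar (M₀ * q * q)) c' * g) := by
    rw [expRes_mul ε' A hvn hmem', mid_expRes_pow ε' A hdm]
  have hXr0 : expRes ε' A ((algebraMap Qb (FBar (M₀ * q * q)) d * u') ^ n *
      (algebraMap Qb (FBar (M₀ * q * q)) c' * g)) ≠ 0 := by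
    rw [hXr]
    exact mul_ne_zero (pow_ne_zero n hdr) hres'
  have hY : galFun (M₀ * q * q) τ (algebraMap Qb (FBar (M₀ * q * q)) c * g) =
      algebraMap Qb (FBar (M₀ * q * q)) (τ c * a * (d ^ n)⁻¹ * c'⁻¹) *
        ((algebraMap Qb (FBar (M₀ * q * q)) d * u') ^ n *
          (algebraMap Qb (FBar (M₀ * q * q)) c' * g)) := by
    rw [galFun_cst_mul, hu, ← hu']
    have hd' : algebraMap Qb (FBar (M₀ * q * q)) d ≠ 0 := (map_ne_zero _).mpr hd
    have hc'' : algebraMap Qb (FBar (M₀ * q * q)) c' ≠ 0 := (map_ne_zero _).mpr hc'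
    simp only [map_mul, map_pow, map_inv₀, mul_pow]
    field_simp
  have hYr0 : expRes ε' A (galFun (M₀ * q * q) τ
      (algebraMap Qb (FBar (M₀ * q * q)) c * g)) ≠ 0 := by
    rw [hr]
    exact hres
  obtain ⟨κ, hκ, hrel⟩ := mid_expRes_const_rel ε' A hX hm hXr0 hYr0 hY
  rw [hr, hXr] at hrel
  have e : expRes ε A (algebraMap Qb (FBar (M₀ * q * q)) c * g) /
      expRes ε' A (algebraMap Qb (FBar (M₀ * q * q)) c' * g) =
      algebraMap (IsLocalRing.ResidueField A) (LaurentSeries (IsLocalRing.ResidueField A)) κ *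
        expRes ε' A (algebraMap Qb (FBar (M₀ * q * q)) d * u') ^ n := by
    rw [hrel, ← mul_assoc, mul_div_assoc, div_self hres', mul_one]
  rw [e]
  exact (IsKPow.const hκ).mul (IsKPow.of_pow_self hdF hdr)

/-- **NORM**: the product of the residues of (scalings of) `g` at the middle expansions is a
constant times an `n`-th power in `k(Z)`, if `Norm_α g` is a constant times an `n`-th power and the
residue at `v_∞` is. -/
theorem mid_norm_rel (hq : q.Prime) (hqM : ¬ q ∣ M₀) (A : ValuationSubring Qb)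
    (hA : A.LiesOverPrime q) (ζ : Qbˣ) (hζ : IsPrimitiveRoot ζ q)
    (ε : Fin (q - 1) → (FBar (M₀ * q * q) →ₐ[Qb] LaurentSeries Qb))
    (hε : ∀ b : Fin (q - 1), IsMidExp M₀ q (ζ ^ ((b : ℕ) + 1)) (ε b))
    {n : ℕ} {g : FBar (M₀ * q * q)} (hg : g ≠ 0)
    (hnorm : IsCPow n (normAlong (heckeAlphaBar Qb (M₀ * q) q) g))
    (hinf : ∀ c : Qb, c ≠ 0 → ∀ r : LaurentSeries (IsLocalRing.ResidueField A), r ≠ 0 →
      RedAt A (AlgEquiv.refl : FBar (M₀ * q * q) ≃ₐ[Qb] FBar (M₀ * q * q))
        (algebraMap Qb (FBar (M₀ * q * q)) c * g) r →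
      IsKPow (modularFunctionFieldFullC (IsLocalRing.ResidueField A) M₀) n r)
    (c' : Fin (q - 1) → Qb) (hc' : ∀ b, c' b ≠ 0)
    (hmem' : ∀ b, algebraMap Qb (FBar (M₀ * q * q)) (c' b) * g ∈ expOv (ε b) A)
    (hres' : ∀ b, expRes (ε b) A (algebraMap Qb (FBar (M₀ * q * q)) (c' b) * g) ≠ 0) :
    IsKPow (modularFunctionFieldFullC (IsLocalRing.ResidueField A) M₀) n
      (∏ b, expRes (ε b) A (algebraMap Qb (FBar (M₀ * q * q)) (c' b) * g)) := by
  -- the vertex `∞`
  obtain ⟨cI, hcI, rI, hrI, hred⟩ :=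
    exists_scale_redAt (N := M₀ * q * q) hq hA
      (AlgEquiv.refl : FBar (M₀ * q * q) ≃ₐ[Qb] FBar (M₀ * q * q)) hg
  have hKI := hinf cI hcI rI hrI hred
  obtain ⟨hred1, hred2⟩ := hred
  have hred1' : ((algebraMap Qb (FBar (M₀ * q * q)) cI * g : FBar (M₀ * q * q)) :
      LaurentSeries Qb) ∈ gaussSub A (modularFunctionFieldBar (M₀ * q * q)) := hred1
  have hred2' : gaussResFun A (modularFunctionFieldBar (M₀ * q * q))
      ((algebraMap Qb (FBar (M₀ * q * q)) cI * g : FBar (M₀ * q * q)) : LaurentSeries Qb) = rI :=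
    hred2
  have hXI : ((algebraMap Qb (FBar (M₀ * q * q)) cI * g : FBar (M₀ * q * q)) :
      LaurentSeries Qb) ∈ gaussSub A (⊤ : IntermediateField Qb (LaurentSeries Qb)) :=
    gaussSub_mono le_top hred1'
  have hXIr : gaussResFun A (⊤ : IntermediateField Qb (LaurentSeries Qb))
      ((algebraMap Qb (FBar (M₀ * q * q)) cI * g : FBar (M₀ * q * q)) : LaurentSeries Qb) = rI := by
    rw [gaussResFun_mono le_top hred1', hred2']
  -- the norm
  obtain ⟨u, a, ha, hu⟩ := hnorm
  have hfin : FiniteAlong Qb (heckeAlphaBar Qb (M₀ * q) q) :=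
    (finrank_alpha (N := M₀ * q) hq (dvd_mul_left q M₀)).1
  have hN0 : normAlong (heckeAlphaBar Qb (M₀ * q) q) g ≠ 0 := normAlong_ne_zero _ hfin hg
  have hun : u ^ n ≠ 0 := by
    intro h0
    rw [h0, mul_zero] at hu
    exact hN0 hu
  obtain ⟨u', hu'0, hu'⟩ := mid_exists_ne_zero_root u n hun
  obtain ⟨d, hd, s, hs, hredu1, hredu2⟩ :=
    exists_scale_redAt (N := M₀ * q) hq hA
      (AlgEquiv.refl : FBar (M₀ * q) ≃ₐ[Qb] FBar (M₀ * q)) hu'0
  have hredu1' : ((algebraMap Qb (FBar (M₀ * q)) d * u' : FBar (M₀ * q)) :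
      LaurentSeries Qb) ∈ gaussSub A (modularFunctionFieldBar (M₀ * q)) := hredu1
  have hredu2' : gaussResFun A (modularFunctionFieldBar (M₀ * q))
      ((algebraMap Qb (FBar (M₀ * q)) d * u' : FBar (M₀ * q)) : LaurentSeries Qb) = s := hredu2
  have hsF : s ∈ modularFunctionFieldFullC (IsLocalRing.ResidueField A) M₀ := by
    rw [← hredu2']
    exact gaussResFun_mem_fullC_mul hq hqM A hA (modFactsAt M₀ q hq hqM A hA) _ hredu1'
  have hU : ((algebraMap Qb (FBar (M₀ * q)) d * u' : FBar (M₀ * q)) :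
      LaurentSeries Qb) ∈ gaussSub A (⊤ : IntermediateField Qb (LaurentSeries Qb)) :=
    gaussSub_mono le_top hredu1'
  have hUr : gaussResFun A (⊤ : IntermediateField Qb (LaurentSeries Qb))
      ((algebraMap Qb (FBar (M₀ * q)) d * u' : FBar (M₀ * q)) : LaurentSeries Qb) = s := by
    rw [gaussResFun_mono le_top hredu1', hredu2']
  -- the product over the middle expansions
  obtain ⟨hP, hPr⟩ := mid_gaussResFun_prod (A := A)
    (F := (⊤ : IntermediateField Qb (LaurentSeries Qb))) Finset.univ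
    (fun b => ε b (algebraMap Qb (FBar (M₀ * q * q)) (c' b) * g)) (fun b _ => hmem' b)
  -- the identity
  have hprod := norm_alpha_mid_expansion hq ζ hζ ε hε g
  rw [hu, ← hu'] at hprod
  have hprod' : algebraMap Qb (LaurentSeries Qb) a * ((u' : FBar (M₀ * q)) : LaurentSeries Qb) ^ n =
      (g : LaurentSeries Qb) * ∏ b : Fin (q - 1), ε b g := hprod
  have hid : ((algebraMap Qb (FBar (M₀ * q * q)) cI * g : FBar (M₀ * q * q)) : LaurentSeries Qb) *
      ∏ b, ε b (algebraMap Qb (FBar (M₀ * q * q)) (c' b) * g) =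
      algebraMap Qb (LaurentSeries Qb) (cI * (∏ b, c' b) * a * (d ^ n)⁻¹) *
        ((algebraMap Qb (FBar (M₀ * q)) d * u' : FBar (M₀ * q)) : LaurentSeries Qb) ^ n := by
    have e1 : ((algebraMap Qb (FBar (M₀ * q * q)) cI * g : FBar (M₀ * q * q)) :
        LaurentSeries Qb) = algebraMap Qb (LaurentSeries Qb) cI * (g : LaurentSeries Qb) := rfl
    have e2 : ((algebraMap Qb (FBar (M₀ * q)) d * u' : FBar (M₀ * q)) : LaurentSeries Qb) =
        algebraMap Qb (LaurentSeries Qb) d * ((u' : FBar (M₀ * q)) : LaurentSeries Qb) := rfl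
    have e3 : ∏ b, ε b (algebraMap Qb (FBar (M₀ * q * q)) (c' b) * g) =
        algebraMap Qb (LaurentSeries Qb) (∏ b, c' b) * ∏ b, ε b g := by
      rw [map_prod, ← Finset.prod_mul_distrib]
      exact Finset.prod_congr rfl fun b _ => by rw [map_mul, AlgHom.commutes]
    have hd' : algebraMap Qb (LaurentSeries Qb) d ≠ 0 := (map_ne_zero _).mpr hd
    rw [e1, e2, e3]
    calc algebraMap Qb (LaurentSeries Qb) cI * (g : LaurentSeries Qb) *
          (algebraMap Qb (LaurentSeries Qb) (∏ b, c' b) * ∏ b, ε b g)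
        = algebraMap Qb (LaurentSeries Qb) cI * algebraMap Qb (LaurentSeries Qb) (∏ b, c' b) *
            ((g : LaurentSeries Qb) * ∏ b, ε b g) := by ring
      _ = algebraMap Qb (LaurentSeries Qb) cI * algebraMap Qb (LaurentSeries Qb) (∏ b, c' b) *
            (algebraMap Qb (LaurentSeries Qb) a *
              ((u' : FBar (M₀ * q)) : LaurentSeries Qb) ^ n) := by rw [hprod']
      _ = _ := by
        simp only [map_mul, map_inv₀, map_pow, mul_pow]
        field_simp
  have hUn : ((algebraMap Qb (FBar (M₀ * q)) d * u' : FBar (M₀ * q)) : LaurentSeries Qb) ^ n ∈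
      gaussSub A (⊤ : IntermediateField Qb (LaurentSeries Qb)) :=
    (gaussSub A (⊤ : IntermediateField Qb (LaurentSeries Qb))).pow_mem hU n
  have hUnr : gaussResFun A (⊤ : IntermediateField Qb (LaurentSeries Qb))
      (((algebraMap Qb (FBar (M₀ * q)) d * u' : FBar (M₀ * q)) : LaurentSeries Qb) ^ n) = s ^ n := by
    rw [mid_gaussResFun_pow hU, hUr]
  have hL := (gaussSub A (⊤ : IntermediateField Qb (LaurentSeries Qb))).mul_mem hXI hP
  have hLr : gaussResFun A (⊤ : IntermediateField Qb (LaurentSeries Qb))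
      (((algebraMap Qb (FBar (M₀ * q * q)) cI * g : FBar (M₀ * q * q)) : LaurentSeries Qb) *
        ∏ b, ε b (algebraMap Qb (FBar (M₀ * q * q)) (c' b) * g)) =
      rI * ∏ b, expRes (ε b) A (algebraMap Qb (FBar (M₀ * q * q)) (c' b) * g) := by
    rw [mid_gaussResFun_mul hXI hP, hXIr, hPr]
    rfl
  have hρ0 : (∏ b, expRes (ε b) A (algebraMap Qb (FBar (M₀ * q * q)) (c' b) * g)) ≠ 0 :=
    Finset.prod_ne_zero_iff.mpr fun b _ => hres' b
  obtain ⟨κ, hκ, hrel⟩ := mid_gaussResFun_const_rel hUn hL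
    (by rw [hUnr]; exact pow_ne_zero n hs) (by rw [hLr]; exact mul_ne_zero hrI hρ0) hid
  rw [hLr, hUnr] at hrel
  have e : (∏ b, expRes (ε b) A (algebraMap Qb (FBar (M₀ * q * q)) (c' b) * g)) =
      algebraMap (IsLocalRing.ResidueField A) (LaurentSeries (IsLocalRing.ResidueField A)) κ *
        s ^ n * rI⁻¹ := by
    rw [eq_mul_inv_iff_mul_eq₀ hrI, mul_comm]
    exact hrel
  rw [e]
  exact ((IsKPow.const hκ).mul (IsKPow.of_pow_self hsF hs)).mul hKI.inv

/-- **Step 1 at the middle vertices** (function form): the `(q - 1)`-st power of the residue of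
`g` at a middle expansion is a constant times an `n`-th power in `igField k M₀`. -/
theorem step1_mid (hq : q.Prime) (hqM : ¬ q ∣ M₀) (A : ValuationSubring Qb)
    (hA : A.LiesOverPrime q) (ζ : Qbˣ) (hζ : IsPrimitiveRoot ζ q)
    (ε : Fin (q - 1) → (FBar (M₀ * q * q) →ₐ[Qb] LaurentSeries Qb))
    (hε : ∀ b : Fin (q - 1), IsMidExp M₀ q (ζ ^ ((b : ℕ) + 1)) (ε b))
    (hscale : IgScale M₀ q) (hupper : IgResUpper M₀ q)
    {n : ℕ} {g : FBar (M₀ * q * q)} (hg : g ≠ 0)
    (hfix : InertiaFixedFun (M₀ * q * q) A n g)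
    (hnorm : IsCPow n (normAlong (heckeAlphaBar Qb (M₀ * q) q) g))
    (hinf : ∀ c : Qb, c ≠ 0 → ∀ r : LaurentSeries (IsLocalRing.ResidueField A), r ≠ 0 →
      RedAt A (AlgEquiv.refl : FBar (M₀ * q * q) ≃ₐ[Qb] FBar (M₀ * q * q))
        (algebraMap Qb (FBar (M₀ * q * q)) c * g) r →
      IsKPow (modularFunctionFieldFullC (IsLocalRing.ResidueField A) M₀) n r)
    (b : Fin (q - 1)) (c : Qb) (hc : c ≠ 0)
    (hmem : algebraMap Qb (FBar (M₀ * q * q)) c * g ∈ expOv (ε b) A)
    (hres : expRes (ε b) A (algebraMap Qb (FBar (M₀ * q * q)) c * g) ≠ 0) :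
    IsKPow (igField (IsLocalRing.ResidueField A) M₀) n
      (expRes (ε b) A (algebraMap Qb (FBar (M₀ * q * q)) c * g) ^ (q - 1)) := by
  have hprim : ∀ b' : Fin (q - 1), IsPrimitiveRoot (ζ ^ ((b' : ℕ) + 1)) q := by
    intro b'
    apply hζ.pow_of_coprime
    have hlt : (b' : ℕ) + 1 < q := by
      have := b'.2
      omega
    exact ((Nat.Prime.coprime_iff_not_dvd hq).mpr
      (Nat.not_dvd_of_pos_of_lt (Nat.succ_pos _) hlt)).symm
  have hex : ∀ b' : Fin (q - 1), ∃ c' : Qb, c' ≠ 0 ∧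
      algebraMap Qb (FBar (M₀ * q * q)) c' * g ∈ expOv (ε b') A ∧
      expRes (ε b') A (algebraMap Qb (FBar (M₀ * q * q)) c' * g) ≠ 0 := by
    intro b'
    obtain ⟨c', hc', h1, h2, -⟩ :=
      mid_exists_unit hq hqM A hA hscale hupper (hprim b') (hε b') hg
    exact ⟨c', hc', h1, h2⟩
  choose c' hc' hmem' hres' using hex
  have hN := mid_norm_rel hq hqM A hA ζ hζ ε hε hg hnorm hinf c' hc' hmem' hres'
  have hI := mid_isKPow_prod (Fk := igField (IsLocalRing.ResidueField A) M₀) (n := n) Finset.univ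
    (fun b' : Fin (q - 1) => expRes (ε b) A (algebraMap Qb (FBar (M₀ * q * q)) c * g) /
      expRes (ε b') A (algebraMap Qb (FBar (M₀ * q * q)) (c' b') * g))
    (fun b' _ => mid_inertia_rel hq hqM A hA hscale hupper (hprim b) (hprim b') (hε b) (hε b')
      hg hfix hc (hc' b') hmem hres (hmem' b') (hres' b'))
  have key : expRes (ε b) A (algebraMap Qb (FBar (M₀ * q * q)) c * g) ^ (q - 1) =
      (∏ b' : Fin (q - 1), expRes (ε b) A (algebraMap Qb (FBar (M₀ * q * q)) c * g) /
        expRes (ε b') A (algebraMap Qb (FBar (M₀ * q * q)) (c' b') * g)) *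
      ∏ b' : Fin (q - 1), expRes (ε b') A (algebraMap Qb (FBar (M₀ * q * q)) (c' b') * g) := by
    rw [← Finset.prod_mul_distrib,
      Finset.prod_congr rfl (fun b' _ => div_mul_cancel₀ _ (hres' b')),
      Finset.prod_const, Finset.card_univ, Fintype.card_fin]
  rw [key]
  exact hI.mul (hN.mono (fullC_le_igField _ M₀))

end Mid

end Fermat.Agent.S36N
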