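/-
Cluster G (S36, Carayol at `q² ∥ M`), block NORM / Step 1, seat S1-MID-CONV (helper17; statement:
helper60).

`isPowRes_mid` : the conclusion of `S36N.step1_mid` (`S36/Step1/Mid.lean`) in the `IsPowRes` form
of `S36/G/Step1Abs.lean`: for a constant reduction `S` attached to a middle expansion `ε₀`
(`IsMidSetup M₀ q A ε₀ S`), a Kummer generator `g` whose class is fixed by the inertia group, with
`Norm_{π₁} g = a uⁿ` and residue at `v_∞` a constant times an `n`-th power:

    `g ^ (q - 1)` is, up to a constant, an `n`-th power in the residue field of `S`.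

The value group (`igScale`) and the existence of the middle expansions (`igMidExpExists`) are on
main; the residue field (`IgResUpper`) is a hypothesis.
-/
import Fermat.Agent.S36.Step1.Mid
import Fermat.Agent.S36.G.Step1Abs
import Fermat.Agent.S36.Igusa.ExpExists
import Fermat.Agent.S36.Igusa.Val

set_option autoImplicit false
set_option linter.style.haveILetI false
set_option linter.unusedSectionVars false
set_option linter.unusedVariables false
set_option synthInstance.maxHeartbeats 400000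

noncomputable section

namespace Fermat.Agent.S36N

open ModularCurve AlgebraicCurve Fermat.Agent.F3 Fermat.Agent.F3G Fermat.Agent.GaussInt
  Fermat.Agent.AtkinLehner Fermat.Agent.Kronecker Fermat.Agent.BadRed Fermat.Agent.HeckeComm
  Fermat.Agent.S36G Fermat.Agent.Deuring

local notation "Qb" => AlgebraicClosure ℚ

attribute [local instance 10000] SubalgebraClass.toAlgebra HahnSeries.powerSeriesAlgebra

variable {M₀ q : ℕ} [NeZero M₀] [NeZero q]

/-- `IsKPow` of the underlying series of an element of a subfield `Fk` of `k((q))` is `IsCn`. -/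
theorem mid_isCn_of_isKPow {k : Type*} [Field k] {Fk : IntermediateField k (LaurentSeries k)}
    {n : ℕ} {y : ↥Fk} (h : IsKPow Fk n (y : LaurentSeries k)) : IsCn k n y := by
  obtain ⟨κ, x, hκ, hxF, hx, hy⟩ := h
  refine ⟨κ, hκ, ⟨x, hxF⟩, fun h0 => hx (congrArg Subtype.val h0), ?_⟩
  apply Subtype.ext
  rw [hy]
  rfl

/-- a family of middle expansions attached to the powers `z ^ (b + 1)`, `b < q - 1`, with a
prescribed member at `b = 0`. -/
theorem mid_exists_family (hq : q.Prime) (hqM : ¬ q ∣ M₀) {z : Qbˣ}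
    {ε₀ : FBar (M₀ * q * q) →ₐ[Qb] LaurentSeries Qb} (hz : IsPrimitiveRoot z q)
    (hε₀ : IsMidExp M₀ q z ε₀) :
    ∃ ε : Fin (q - 1) → (FBar (M₀ * q * q) →ₐ[Qb] LaurentSeries Qb),
      (∀ b : Fin (q - 1), IsMidExp M₀ q (z ^ ((b : ℕ) + 1)) (ε b)) ∧
      ∀ b : Fin (q - 1), (b : ℕ) = 0 → ε b = ε₀ := by
  classical
  have hprim : ∀ b : Fin (q - 1), IsPrimitiveRoot (z ^ ((b : ℕ) + 1)) q := by
    intro b
    apply hz.pow_of_coprime
    have hlt : (b : ℕ) + 1 < q := by
      have := b.2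
      omega
    exact ((Nat.Prime.coprime_iff_not_dvd hq).mpr
      (Nat.not_dvd_of_pos_of_lt (Nat.succ_pos _) hlt)).symm
  have hex : ∀ b : Fin (q - 1), ∃ ε : FBar (M₀ * q * q) →ₐ[Qb] LaurentSeries Qb,
      IsMidExp M₀ q (z ^ ((b : ℕ) + 1)) ε ∧ ((b : ℕ) = 0 → ε = ε₀) := by
    intro b
    by_cases hb : (b : ℕ) = 0
    · refine ⟨ε₀, ?_, fun _ => rfl⟩
      rw [hb, zero_add, pow_one]
      exact hε₀
    · obtain ⟨ε, hε⟩ := igMidExpExists M₀ q hq hqM (z ^ ((b : ℕ) + 1)) (hprim b)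
      exact ⟨ε, hε, fun h => absurd h hb⟩
  choose ε hε hε0 using hex
  exact ⟨ε, hε, hε0⟩

/-- **Step 1 at a middle vertex, `IsPowRes` form.** -/
theorem isPowRes_mid (hq : q.Prime) (hqM : ¬ q ∣ M₀) (A : ValuationSubring Qb)
    (hA : A.LiesOverPrime q) (hupper : IgResUpper M₀ q)
    {z : Qbˣ} {ε₀ : FBar (M₀ * q * q) →ₐ[Qb] LaurentSeries Qb}
    (hz : IsPrimitiveRoot z q) (hε₀ : IsMidExp M₀ q z ε₀)
    (S : ValSetup Qb (FBar (M₀ * q * q)) (IsLocalRing.ResidueField A)
      ↥(igField (IsLocalRing.ResidueField A) M₀))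
    (hS : IsMidSetup M₀ q A ε₀ S)
    {n : ℕ} {g : FBar (M₀ * q * q)} (hg : g ≠ 0)
    (hfix : InertiaFixedFun (M₀ * q * q) A n g)
    (hnorm : IsCPow n (normAlong (heckeAlphaBar Qb (M₀ * q) q) g))
    (hinf : ∀ c : Qb, c ≠ 0 → ∀ r : LaurentSeries (IsLocalRing.ResidueField A), r ≠ 0 →
      RedAt A (AlgEquiv.refl : FBar (M₀ * q * q) ≃ₐ[Qb] FBar (M₀ * q * q))
        (algebraMap Qb (FBar (M₀ * q * q)) c * g) r →
      IsKPow (modularFunctionFieldFullC (IsLocalRing.ResidueField A) M₀) n r) :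
    IsPowRes S n (g ^ (q - 1)) := by
  obtain ⟨ε, hε, hε0⟩ := mid_exists_family hq hqM hz hε₀
  have hq1 : 0 < q - 1 := by
    have := hq.two_le
    omega
  set b₀ : Fin (q - 1) := ⟨0, hq1⟩ with hb₀
  have hεb₀ : ε b₀ = ε₀ := hε0 b₀ rfl
  -- scaling
  obtain ⟨a, ha, hred⟩ := sa_exists_scale S hg
  have ha' : algebraMap Qb (FBar (M₀ * q * q)) a ≠ 0 := (map_ne_zero _).mpr ha
  have e : algebraMap Qb (FBar (M₀ * q * q)) a⁻¹ * g =
      g / algebraMap Qb (FBar (M₀ * q * q)) a := by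
    rw [map_inv₀, div_eq_mul_inv]
    exact mul_comm _ _
  have hSmem : g / algebraMap Qb (FBar (M₀ * q * q)) a ∈ S.Ov := S.mem_of_red_ne_zero hred
  have hcoe := hS.coe_red _ hSmem
  have hmem : algebraMap Qb (FBar (M₀ * q * q)) a⁻¹ * g ∈ expOv (ε b₀) A := by
    rw [hεb₀, e]
    exact (hS.mem_iff _).mp hSmem
  have hres : expRes (ε b₀) A (algebraMap Qb (FBar (M₀ * q * q)) a⁻¹ * g) ≠ 0 := by
    rw [hεb₀, e, ← hcoe]
    intro h0
    exact hred (Subtype.ext h0)
  have hK := step1_mid hq hqM A hA z hz ε hε (igScale M₀ q) hupper hg hfix hnorm hinf b₀ a⁻¹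
    (inv_ne_zero ha) hmem hres
  rw [hεb₀, e, ← hcoe] at hK
  have hK' : IsKPow (igField (IsLocalRing.ResidueField A) M₀) n
      (((S.red (g / algebraMap Qb (FBar (M₀ * q * q)) a) ^ (q - 1) :
        ↥(igField (IsLocalRing.ResidueField A) M₀)) :
          LaurentSeries (IsLocalRing.ResidueField A))) := hK
  have hCn : IsCn (IsLocalRing.ResidueField A) n
      (S.red (g / algebraMap Qb (FBar (M₀ * q * q)) a) ^ (q - 1)) := mid_isCn_of_isKPow hK'
  have hpow : S.red (g ^ (q - 1) / algebraMap Qb (FBar (M₀ * q * q)) (a ^ (q - 1))) =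
      S.red (g / algebraMap Qb (FBar (M₀ * q * q)) a) ^ (q - 1) := by
    rw [map_pow, ← div_pow, sa_red_pow S hred]
  have hne : S.red (g ^ (q - 1) / algebraMap Qb (FBar (M₀ * q * q)) (a ^ (q - 1))) ≠ 0 := by
    rw [hpow]
    exact pow_ne_zero _ hred
  refine (isPowRes_iff_isCn S (pow_ne_zero _ ha) hne).mpr ?_
  rw [hpow]
  exact hCn

end Fermat.Agent.S36N
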