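/-
Cluster G (S36, Carayol at `q² ∥ M`), block NORM / Step 1, seat S1-MID, hypothesis `hI` of the
abstract `S36G.step1_mid` (`S36/G/Step1Abs.lean`, helper60).  Owner: helper17.

THE INERTIA GROUP AT `A ∣ q` ACTS TRANSITIVELY ON THE MIDDLE RESIDUE MAPS: for two middle
expansions `ε`, `ε'` (attached to primitive `q`-th roots of unity `z`, `z'`) with constant
reductions `S`, `S'` (`IsMidSetup`), there is a ring automorphism `t` of `F = F_{M₀ q²}`
(`t = galFun τ`, `τ` in the inertia group with `τ z = z'`) which maps constants to constants,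
satisfies `S'.red (t f) = S.red f` for every `S`-unit `f`, and `t g = a uⁿ g` for every `g` whose
class is fixed by the inertia group.

* `mid_hI_pair` : two expansions;
* `mid_hI`      : the family `ε b`, `b : Fin (q - 1)`, in the exact shape of `hI`.
-/
import Fermat.Agent.S36.Step1.Mid

set_option autoImplicit false
set_option linter.style.haveILetI false
set_option linter.unusedSectionVars false
set_option linter.unusedVariables false
set_option synthInstance.maxHeartbeats 400000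

noncomputable section

namespace Fermat.Agent.S36N

open ModularCurve AlgebraicCurve Fermat.Agent.F3 Fermat.Agent.F3G Fermat.Agent.GaussInt
  Fermat.Agent.AtkinLehner Fermat.Agent.Kronecker Fermat.Agent.BadRed Fermat.Agent.HeckeComm
  Fermat.Agent.S36G Fermat.Agent.Deuring

local notation "Qb" => AlgebraicClosure ℚ

attribute [local instance 10000] SubalgebraClass.toAlgebra HahnSeries.powerSeriesAlgebra

variable {M₀ q : ℕ} [NeZero M₀] [NeZero q]

/-- an element of the inertia group at `A ∣ q` mapping a primitive `q`-th root of unity `z` to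
another one `z'`. -/
theorem mid_exists_inertia (hq : q.Prime) (A : ValuationSubring Qb) (hA : A.LiesOverPrime q)
    {z z' : Qbˣ} (hz : IsPrimitiveRoot z q) (hz' : IsPrimitiveRoot z' q) :
    ∃ τ ∈ A.inertiaSubgroupIn ℚ, (z' : Qb) = τ (z : Qb) := by
  haveI : Fact q.Prime := ⟨hq⟩
  have hzQ : IsPrimitiveRoot (z : Qb) q := IsPrimitiveRoot.coe_units_iff.mpr hz
  have hz'Q : IsPrimitiveRoot (z' : Qb) q := IsPrimitiveRoot.coe_units_iff.mpr hz'
  obtain ⟨i, hi, hpow⟩ := hzQ.eq_pow_of_pow_eq_one hz'Q.pow_eq_one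
  have hqi : ¬ q ∣ i := by
    intro hd
    have hi0 : i = 0 := Nat.eq_zero_of_dvd_of_lt hd hi
    rw [hi0, pow_zero] at hpow
    exact hz'Q.ne_one hq.one_lt hpow.symm
  obtain ⟨τ, hτ, hτpow⟩ := inert_exists_pow_on_roots q A hA i hqi
  exact ⟨τ, hτ, by rw [hτpow _ hzQ.pow_eq_one, hpow]⟩

/-- **`hI`, two expansions.** -/
theorem mid_hI_pair (hq : q.Prime) (A : ValuationSubring Qb) (hA : A.LiesOverPrime q)
    {z z' : Qbˣ} (hz : IsPrimitiveRoot z q) (hz' : IsPrimitiveRoot z' q)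
    {ε ε' : FBar (M₀ * q * q) →ₐ[Qb] LaurentSeries Qb}
    (hε : IsMidExp M₀ q z ε) (hε' : IsMidExp M₀ q z' ε')
    {S S' : ValSetup Qb (FBar (M₀ * q * q)) (IsLocalRing.ResidueField A)
      ↥(igField (IsLocalRing.ResidueField A) M₀)}
    (hS : IsMidSetup M₀ q A ε S) (hS' : IsMidSetup M₀ q A ε' S')
    {n : ℕ} {g : FBar (M₀ * q * q)} (hfix : InertiaFixedFun (M₀ * q * q) A n g) :
    ∃ t : FBar (M₀ * q * q) ≃+* FBar (M₀ * q * q),
      (∀ c : Qb, ∃ c' : Qb, t (algebraMap Qb (FBar (M₀ * q * q)) c) =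
        algebraMap Qb (FBar (M₀ * q * q)) c') ∧
      (∀ f : FBar (M₀ * q * q), S.red f ≠ 0 → S'.red (t f) = S.red f) ∧
      ∃ (u : FBar (M₀ * q * q)) (a : Qb), a ≠ 0 ∧
        t g = algebraMap Qb (FBar (M₀ * q * q)) a * u ^ n * g := by
  obtain ⟨τ, hτ, hzz⟩ := mid_exists_inertia hq A hA hz hz'
  refine ⟨arithmeticRingAut (modularFunctionFieldFull (M₀ * q * q)) τ, ?_, ?_, ?_⟩
  · intro c
    exact ⟨τ c, arithmeticRingAut_algebraMap _ τ c⟩
  · intro f hf
    have hfS : f ∈ S.Ov := S.mem_of_red_ne_zero hf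
    have hfO : f ∈ expOv ε A := (hS.mem_iff f).mp hfS
    obtain ⟨hm0, hr0⟩ := expRes_galFun_of_inertia hq A τ hτ hzz hε hε' hfO
    have hm : arithmeticRingAut (modularFunctionFieldFull (M₀ * q * q)) τ f ∈ expOv ε' A := hm0
    have hr : expRes ε' A (arithmeticRingAut (modularFunctionFieldFull (M₀ * q * q)) τ f) =
        expRes ε A f := hr0
    have hmS : arithmeticRingAut (modularFunctionFieldFull (M₀ * q * q)) τ f ∈ S'.Ov :=
      (hS'.mem_iff _).mpr hm
    apply Subtype.ext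
    rw [hS'.coe_red _ hmS, hS.coe_red _ hfS, hr]
  · obtain ⟨u, a, ha, hu⟩ := hfix τ hτ
    exact ⟨u, a, ha, hu⟩

/-- **`hI`** for the family of the middle expansions `ε b`, `b : Fin (q - 1)`, attached to
`ζ ^ (b + 1)`: the exact shape of the hypothesis `hI` of `S36G.step1_mid`. -/
theorem mid_hI (hq : q.Prime) (A : ValuationSubring Qb) (hA : A.LiesOverPrime q)
    (ζ : Qbˣ) (hζ : IsPrimitiveRoot ζ q)
    (ε : Fin (q - 1) → (FBar (M₀ * q * q) →ₐ[Qb] LaurentSeries Qb))
    (hε : ∀ b : Fin (q - 1), IsMidExp M₀ q (ζ ^ ((b : ℕ) + 1)) (ε b))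
    (Sm : Fin (q - 1) → ValSetup Qb (FBar (M₀ * q * q)) (IsLocalRing.ResidueField A)
      ↥(igField (IsLocalRing.ResidueField A) M₀))
    (hSm : ∀ b, IsMidSetup M₀ q A (ε b) (Sm b))
    {n : ℕ} {g : FBar (M₀ * q * q)} (hfix : InertiaFixedFun (M₀ * q * q) A n g) :
    ∀ b b' : Fin (q - 1), ∃ t : FBar (M₀ * q * q) ≃+* FBar (M₀ * q * q),
      (∀ c : Qb, ∃ c' : Qb, t (algebraMap Qb (FBar (M₀ * q * q)) c) =
        algebraMap Qb (FBar (M₀ * q * q)) c') ∧
      (∀ f : FBar (M₀ * q * q), (Sm b).red f ≠ 0 → (Sm b').red (t f) = (Sm b).red f) ∧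
      ∃ (u : FBar (M₀ * q * q)) (a : Qb), a ≠ 0 ∧
        t g = algebraMap Qb (FBar (M₀ * q * q)) a * u ^ n * g := by
  have hprim : ∀ b' : Fin (q - 1), IsPrimitiveRoot (ζ ^ ((b' : ℕ) + 1)) q := by
    intro b'
    apply hζ.pow_of_coprime
    have hlt : (b' : ℕ) + 1 < q := by
      have := b'.2
      omega
    exact ((Nat.Prime.coprime_iff_not_dvd hq).mpr
      (Nat.not_dvd_of_pos_of_lt (Nat.succ_pos _) hlt)).symm
  intro b b'
  exact mid_hI_pair hq A hA (hprim b) (hprim b') (hε b) (hε b') (hSm b) (hSm b') hfix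

end Fermat.Agent.S36N
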