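import Fermat.Agent.S36.Step1.Vert
import Fermat.Agent.S36.G.Step1Abs
import Fermat.Agent.Lib.FrobTrace.Residue

set_option autoImplicit false
set_option linter.style.haveILetI false
set_option linter.unusedSectionVars false
set_option linter.unusedVariables false

/-!
# S36 (Carayol), Step 1 at the vertices `∞` and `0`, `ValSetup` form  (helper63, seat S1-CONV)

helper66's `step1_inf` / `step1_zero` (`S36/Step1/Vert.lean`, series form `IsKPow`) converted to
helper60's `S36G.IsPowRes` (`S36/G/Step1Abs.lean`, `= GraphSetup.IsPowAt` for one valuation).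

* `isCPow_div_const`, `isCPow_norm_div_const`, `isCPow_norm_wAt_div_const`: the predicates
  `IsCPow n (N g)`, `IsCPow n (N (W g))` do not change if `g` is divided by a constant;
* `isPowRes_of_isKPow` : for a Gauss setup `S` (`IsGaussSetup`), if every nonzero residue
  of `g / a` is `IsKPow`, then `IsPowRes S n g`;
* `isPowRes_inf`  : `IsCPow n (N_α (W₂ g)) ⟹ IsPowRes S n g` (`S` the Gauss setup `v_∞`);
* `isPowRes_zero` : `IsCPow n (N_α g) ⟹ IsPowRes S0 n g` (`S0 = v_0`, `red_{S0} = red_S ∘ W₂`).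
-/

noncomputable section

namespace Fermat.Agent.S36N

open ModularCurve AlgebraicCurve Fermat.Agent.F3 Fermat.Agent.F3G Fermat.Agent.GaussInt
  Fermat.Agent.AtkinLehner Fermat.Agent.Kronecker Fermat.Agent.BadRed Fermat.Agent.HeckeComm
  Fermat.Agent.S36G Fermat.Agent.Deuring

local notation "Qb" => AlgebraicClosure ℚ

set_option synthInstance.maxHeartbeats 400000

/-! ### division by constants -/

section Const

variable {F F' : Type*} [Field F] [Field F'] [Algebra Qb F] [Algebra Qb F']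

/-- `IsCPow` is not changed by a nonzero constant factor. -/
theorem isCPow_mul_const {n : ℕ} {x : F} (hx : IsCPow n x) {b : Qb} (hb : b ≠ 0) :
    IsCPow n (x * algebraMap Qb F b) := by
  obtain ⟨u, a, ha, rfl⟩ := hx
  exact ⟨u, a * b, mul_ne_zero ha hb, by rw [map_mul]; ring⟩

/-- the norm of a constant is a constant. -/
theorem normAlong_algebraMap_eq (α : F →ₐ[Qb] F') (c : Qb) :
    normAlong α (algebraMap Qb F' c) =
      algebraMap Qb F (c ^ (letI := algebraAlong α; Module.finrank F F')) := by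
  letI := algebraAlong α
  have h1 : algebraMap Qb F' c = algebraMap F F' (algebraMap Qb F c) := (α.commutes c).symm
  show Algebra.norm F (algebraMap Qb F' c) = _
  rw [h1, Algebra.norm_algebraMap, map_pow]

/-- `IsCPow n (N g)` is not changed if `g` is divided by a nonzero constant. -/
theorem isCPow_norm_div_const (α : F →ₐ[Qb] F') {n : ℕ} {g : F'}
    (h : IsCPow n (normAlong α g)) {a : Qb} (ha : a ≠ 0) :
    IsCPow n (normAlong α (g / algebraMap Qb F' a)) := by
  have e : g / algebraMap Qb F' a = g * algebraMap Qb F' a⁻¹ := by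
    rw [map_inv₀, div_eq_mul_inv]
  rw [e, map_mul, normAlong_algebraMap_eq]
  exact isCPow_mul_const h (pow_ne_zero _ (inv_ne_zero ha))

/-- `IsCPow n (N (W g))` is not changed if `g` is divided by a nonzero constant. -/
theorem isCPow_norm_equiv_div_const (α : F →ₐ[Qb] F') (w : F' ≃ₐ[Qb] F') {n : ℕ} {g : F'}
    (h : IsCPow n (normAlong α (w g))) {a : Qb} (ha : a ≠ 0) :
    IsCPow n (normAlong α (w (g / algebraMap Qb F' a))) := by
  have e : w (g / algebraMap Qb F' a) = w g / algebraMap Qb F' a := by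
    rw [map_div₀, AlgEquiv.commutes]
  rw [e]
  exact isCPow_norm_div_const α h ha

end Const

/-! ### from the series form to the `ValSetup` form -/

section Conv

variable {N N₀ : ℕ} [NeZero N] [NeZero N₀] {A : ValuationSubring Qb}

/-- an `IsKPow` residue is `IsCn` in the residue field. -/
theorem isCn_of_isKPow {n : ℕ}
    {y : ↥(modularFunctionFieldFullC (IsLocalRing.ResidueField A) N₀)}
    (h : IsKPow (modularFunctionFieldFullC (IsLocalRing.ResidueField A) N₀) n
      (y : LaurentSeries (IsLocalRing.ResidueField A))) :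
    IsCn (IsLocalRing.ResidueField A) n y := by
  obtain ⟨κ, u, hκ, hu, hu0, heq⟩ := h
  refine ⟨κ, hκ, ⟨u, hu⟩, ?_, ?_⟩
  · intro h0
    apply hu0
    exact congrArg Subtype.val h0
  · apply Subtype.ext
    rw [heq]
    rfl

/-- **conversion**: for a Gauss setup `S`, if every nonzero residue of `g / a` (`a` a nonzero
constant) is `IsKPow`, then `g` is, up to a constant, an `n`-th power in the residue field. -/
theorem isPowRes_of_isKPow
    {S : ValSetup Qb (FBar N) (IsLocalRing.ResidueField A)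
      ↥(modularFunctionFieldFullC (IsLocalRing.ResidueField A) N₀)}
    (hS : IsGaussSetup N N₀ A S) {n : ℕ} {g : FBar N} (hg : g ≠ 0)
    (h : ∀ (a : Qb) (r : LaurentSeries (IsLocalRing.ResidueField A)), a ≠ 0 →
      RedAt A (AlgEquiv.refl : FBar N ≃ₐ[Qb] FBar N) (g / algebraMap Qb (FBar N) a) r → r ≠ 0 →
      IsKPow (modularFunctionFieldFullC (IsLocalRing.ResidueField A) N₀) n r) :
    IsPowRes S n g := by
  obtain ⟨a, ha, hy⟩ := sa_exists_scale S hg
  have hmem : g / algebraMap Qb (FBar N) a ∈ S.Ov := S.mem_of_red_ne_zero hy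
  have hred : RedAt A (AlgEquiv.refl : FBar N ≃ₐ[Qb] FBar N) (g / algebraMap Qb (FBar N) a)
      ((S.red (g / algebraMap Qb (FBar N) a) :
        ↥(modularFunctionFieldFullC (IsLocalRing.ResidueField A) N₀)) :
          LaurentSeries (IsLocalRing.ResidueField A)) :=
    ⟨(hS.mem_iff _).mp hmem, (hS.coe_red _ hmem).symm⟩
  have hr : ((S.red (g / algebraMap Qb (FBar N) a) :
      ↥(modularFunctionFieldFullC (IsLocalRing.ResidueField A) N₀)) :
        LaurentSeries (IsLocalRing.ResidueField A)) ≠ 0 := by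
    intro h0
    apply hy
    exact Subtype.ext h0
  exact (isPowRes_iff_isCn S ha hy).mpr (isCn_of_isKPow (h a _ ha hred hr))

/-- the same for a setup `S0` whose residue map is `red_S ∘ ψ` (`ψ` an automorphism of `F_N`):
`v_0 = v_∞ ∘ W`. -/
theorem isPowRes_of_isKPow_equiv
    {S S0 : ValSetup Qb (FBar N) (IsLocalRing.ResidueField A)
      ↥(modularFunctionFieldFullC (IsLocalRing.ResidueField A) N₀)}
    (hS : IsGaussSetup N N₀ A S) (ψ : FBar N ≃ₐ[Qb] FBar N)
    (h0 : ∀ f : FBar N, S0.red f = S.red (ψ f)) {n : ℕ} {g : FBar N} (hg : g ≠ 0)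
    (h : ∀ (a : Qb) (r : LaurentSeries (IsLocalRing.ResidueField A)), a ≠ 0 →
      RedAt A ψ (g / algebraMap Qb (FBar N) a) r → r ≠ 0 →
      IsKPow (modularFunctionFieldFullC (IsLocalRing.ResidueField A) N₀) n r) :
    IsPowRes S0 n g := by
  obtain ⟨a, ha, hy⟩ := sa_exists_scale S0 hg
  have hy' : S.red (ψ (g / algebraMap Qb (FBar N) a)) ≠ 0 := by
    rw [← h0]
    exact hy
  have hmem : ψ (g / algebraMap Qb (FBar N) a) ∈ S.Ov := S.mem_of_red_ne_zero hy'
  have hred : RedAt A ψ (g / algebraMap Qb (FBar N) a)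
      ((S.red (ψ (g / algebraMap Qb (FBar N) a)) :
        ↥(modularFunctionFieldFullC (IsLocalRing.ResidueField A) N₀)) :
          LaurentSeries (IsLocalRing.ResidueField A)) :=
    ⟨(hS.mem_iff _).mp hmem, (hS.coe_red _ hmem).symm⟩
  have hr : ((S.red (ψ (g / algebraMap Qb (FBar N) a)) :
      ↥(modularFunctionFieldFullC (IsLocalRing.ResidueField A) N₀)) :
        LaurentSeries (IsLocalRing.ResidueField A)) ≠ 0 := by
    intro h1
    apply hy'
    exact Subtype.ext h1
  refine (isPowRes_iff_isCn S0 ha hy).mpr ?_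
  rw [h0]
  exact isCn_of_isKPow (h a _ ha hred hr)

end Conv

/-! ### Step 1 at `∞` and `0`, `ValSetup` form -/

section Step1

variable {N : ℕ} [NeZero N] {A : ValuationSubring Qb} {ℓ : ℕ} [NeZero ℓ]

/-- **Step 1 at `∞`**, `ValSetup` form: `π₂_* x = 0` kills the class of the residue of `g` at
`v_∞`. -/
theorem isPowRes_inf (hℓ : ℓ.Prime) (hA : A.LiesOverPrime ℓ) (D₁ D₂ : ALData) [NeZero D₁.R]
    (hQ₁ : D₁.Q = ℓ) (hQR : ¬ ℓ ∣ D₁.R) (hQ : D₂.Q = D₁.Q * ℓ) (hR : D₂.R = D₁.R)
    (hN : N = D₁.Q * D₁.R) (hNℓ : N * ℓ = D₂.Q * D₂.R)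
    {S : ValSetup Qb (FBar (N * ℓ)) (IsLocalRing.ResidueField A)
      ↥(modularFunctionFieldFullC (IsLocalRing.ResidueField A) D₁.R)}
    (hS : IsGaussSetup (N * ℓ) D₁.R A S) {n : ℕ} {g : FBar (N * ℓ)} (hg : g ≠ 0)
    (hnorm : IsCPow n (normAlong (heckeAlphaBar Qb N ℓ) (wAt D₂ hNℓ g))) :
    IsPowRes S n g := by
  haveI : Fact ℓ.Prime := ⟨hℓ⟩
  haveI := isAlgClosed_residue A
  haveI : CharP (IsLocalRing.ResidueField A) ℓ := Fermat.Agent.FrobTrace.charP_residueField A hA
  refine isPowRes_of_isKPow hS hg fun a r ha hred hr => ?_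
  exact step1_inf hA D₁ D₂ hQ₁ hQR hQ hR hN hNℓ
    (isCPow_norm_equiv_div_const _ (wAt D₂ hNℓ) hnorm ha) hred hr

/-- **Step 1 at `0`**, `ValSetup` form: `π₁_* x = 0` kills the class of the residue of `g` at
`v_0 = v_∞ ∘ W₂`. -/
theorem isPowRes_zero (hℓ : ℓ.Prime) (hA : A.LiesOverPrime ℓ) (D₁ D₂ : ALData) [NeZero D₁.R]
    (hQ₁ : D₁.Q = ℓ) (hQR : ¬ ℓ ∣ D₁.R) (hQ : D₂.Q = D₁.Q * ℓ) (hR : D₂.R = D₁.R)
    (hN : N = D₁.Q * D₁.R) (hNℓ : N * ℓ = D₂.Q * D₂.R)
    {S S0 : ValSetup Qb (FBar (N * ℓ)) (IsLocalRing.ResidueField A)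
      ↥(modularFunctionFieldFullC (IsLocalRing.ResidueField A) D₁.R)}
    (hS : IsGaussSetup (N * ℓ) D₁.R A S)
    (h0 : ∀ f : FBar (N * ℓ), S0.red f = S.red (wAt D₂ hNℓ f))
    {n : ℕ} {g : FBar (N * ℓ)} (hg : g ≠ 0)
    (hnorm : IsCPow n (normAlong (heckeAlphaBar Qb N ℓ) g)) :
    IsPowRes S0 n g := by
  haveI : Fact ℓ.Prime := ⟨hℓ⟩
  haveI := isAlgClosed_residue A
  haveI : CharP (IsLocalRing.ResidueField A) ℓ := Fermat.Agent.FrobTrace.charP_residueField A hA
  refine isPowRes_of_isKPow_equiv hS (wAt D₂ hNℓ) h0 hg fun a r ha hred hr => ?_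
  exact step1_zero hA D₁ D₂ hQ₁ hQR hQ hR hN hNℓ
    (isCPow_norm_div_const _ hnorm ha) hred hr

end Step1

end Fermat.Agent.S36N
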